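import Mathlib

/-!
# Project ES, part E, work package E-ALL1: core lemmas

Route (no DFT, no orbit labelling): for an equivariant analytic matrix germ `M` put
`Q w = M w * (M w)ᵀ`.  Then `det Q = (det M) ^ 2`, `Q` is invariant under `w ↦ ζ w`, and the
kernel of `(M 0)ᵀ` has dimension `≥ |X| - #orbits`.  For `v` in that kernel the entries of
`Q w *ᵥ v` are analytic, invariant and vanish at `0`, hence are `O(|w| ^ e)`.  Expanding the
determinant in a basis adapted to the kernel gives `det Q = O(|w| ^ (e * dim ker))`.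
-/

set_option autoImplicit false

open Complex Filter Function Topology
open scoped Matrix

namespace Fermat.Agent.S21.E.All1

/-- An analytic germ at `0` which is invariant under `w ↦ ζ w` (`ζ` a primitive `e`-th root of
unity) and vanishes at `0` is `O(|w| ^ e)`. -/
theorem norm_le_pow_of_invariant {f : ℂ → ℂ} (hf : AnalyticAt ℂ f 0) (h0 : f 0 = 0) {e : ℕ}
    {ζ : ℂ} (hζ : IsPrimitiveRoot ζ e)
    (hinv : ∀ᶠ w in 𝓝 (0 : ℂ), f (ζ * w) = f w) :
    ∃ C : ℝ, 0 ≤ C ∧ ∀ᶠ w in 𝓝 (0 : ℂ), ‖f w‖ ≤ C * ‖w‖ ^ e := by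
  by_cases h : ∀ᶠ z in 𝓝 (0 : ℂ), f z = 0
  · refine ⟨0, le_rfl, h.mono fun w hw => ?_⟩
    simp [hw]
  · obtain ⟨n, g, hg, hg0, hfg⟩ := hf.exists_eventuallyEq_pow_smul_nonzero_iff.mpr h
    have hfg' : ∀ᶠ w in 𝓝 (0 : ℂ), f w = w ^ n * g w := by
      filter_upwards [hfg] with w hw
      simpa using hw
    have hn : n ≠ 0 := by
      rintro rfl
      have := hfg'.self_of_nhds
      rw [h0] at this
      simp at this
      exact hg0 this.symm
    -- continuity of `w ↦ ζ * w` at `0`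
    have hmul : Tendsto (fun w : ℂ => ζ * w) (𝓝 0) (𝓝 0) := by
      have : Tendsto (fun w : ℂ => ζ * w) (𝓝 0) (𝓝 (ζ * 0)) :=
        (continuous_const.mul continuous_id).tendsto 0
      simpa using this
    have hfgζ : ∀ᶠ w in 𝓝 (0 : ℂ), f (ζ * w) = (ζ * w) ^ n * g (ζ * w) := hmul.eventually hfg'
    -- `ζ ^ n * g (ζ w) = g w` on a punctured neighbourhood
    have hpunct : ∀ᶠ w in 𝓝[≠] (0 : ℂ), ζ ^ n * g (ζ * w) = g w := by
      have h1 : ∀ᶠ w in 𝓝 (0 : ℂ), w ^ n * (ζ ^ n * g (ζ * w)) = w ^ n * g w := by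
        filter_upwards [hfg', hfgζ, hinv] with w h1 h2 h3
        rw [← h1, ← h3, h2, mul_pow]; ring
      have h2 := h1.filter_mono (nhdsWithin_le_nhds (s := {0}ᶜ))
      filter_upwards [h2, self_mem_nhdsWithin] with w hw hw0
      exact mul_left_cancel₀ (pow_ne_zero n hw0) hw
    have hcont1 : Tendsto (fun w : ℂ => ζ ^ n * g (ζ * w)) (𝓝[≠] 0) (𝓝 (ζ ^ n * g 0)) := by
      have hgc : Tendsto (fun w : ℂ => g (ζ * w)) (𝓝 0) (𝓝 (g 0)) :=
        hg.continuousAt.tendsto.comp hmul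
      exact (hgc.const_mul _).mono_left nhdsWithin_le_nhds
    have hcont2 : Tendsto g (𝓝[≠] (0 : ℂ)) (𝓝 (g 0)) :=
      hg.continuousAt.tendsto.mono_left nhdsWithin_le_nhds
    have hlim : ζ ^ n * g 0 = g 0 :=
      tendsto_nhds_unique (hcont1.congr' hpunct) hcont2
    have hζn : ζ ^ n = 1 := by
      have : (ζ ^ n - 1) * g 0 = 0 := by rw [sub_mul, hlim]; ring
      rcases mul_eq_zero.mp this with h | h
      · exact sub_eq_zero.mp h
      · exact absurd h hg0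
    have hen : e ≤ n :=
      Nat.le_of_dvd (Nat.pos_of_ne_zero hn) ((hζ.pow_eq_one_iff_dvd n).mp hζn)
    have hgb : ∀ᶠ w in 𝓝 (0 : ℂ), ‖g w‖ ≤ ‖g 0‖ + 1 := by
      have : ∀ᶠ w in 𝓝 (0 : ℂ), ‖g w‖ < ‖g 0‖ + 1 :=
        (hg.continuousAt.norm.tendsto).eventually (gt_mem_nhds (by linarith))
      exact this.mono fun w hw => hw.le
    have hw1 : ∀ᶠ w in 𝓝 (0 : ℂ), ‖w‖ ≤ 1 := by
      have : ∀ᶠ w in 𝓝 (0 : ℂ), ‖w‖ < 1 :=
        (continuous_norm.tendsto (0 : ℂ)).eventually (gt_mem_nhds (by simp))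
      exact this.mono fun w hw => hw.le
    refine ⟨‖g 0‖ + 1, by positivity, ?_⟩
    filter_upwards [hfg', hgb, hw1] with w hw hgw hw1
    rw [hw, norm_mul, norm_pow, mul_comm]
    have hpow : ‖w‖ ^ n ≤ ‖w‖ ^ e := pow_le_pow_of_le_one (norm_nonneg w) hw1 hen
    exact mul_le_mul hgw hpow (by positivity) (by positivity)

/-- Leibniz bound: if all entries of column `j` are `≤ C |w| ^ (m j)` near `0`, the determinant
is `O(|w| ^ (∑ j, m j))`. -/
theorem norm_det_le_of_col_bounds {ι : Type*} [Fintype ι] [DecidableEq ι]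
    (A : ℂ → Matrix ι ι ℂ) (m : ι → ℕ) (C : ℝ) (hC : 0 ≤ C)
    (h : ∀ᶠ w in 𝓝 (0 : ℂ), ∀ i j, ‖A w i j‖ ≤ C * ‖w‖ ^ (m j)) :
    ∃ C' : ℝ, 0 ≤ C' ∧ ∀ᶠ w in 𝓝 (0 : ℂ), ‖(A w).det‖ ≤ C' * ‖w‖ ^ (∑ j, m j) := by
  refine ⟨(Fintype.card (Equiv.Perm ι) : ℝ) * C ^ Fintype.card ι, by positivity, ?_⟩
  filter_upwards [h] with w hw
  rw [Matrix.det_apply]
  calc ‖∑ σ : Equiv.Perm ι, Equiv.Perm.sign σ • ∏ i, A w (σ i) i‖
      ≤ ∑ σ : Equiv.Perm ι, ‖Equiv.Perm.sign σ • ∏ i, A w (σ i) i‖ := norm_sum_le _ _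
    _ ≤ ∑ _σ : Equiv.Perm ι, C ^ Fintype.card ι * ‖w‖ ^ (∑ j, m j) := by
        refine Finset.sum_le_sum fun σ _ => ?_
        have hs : ‖Equiv.Perm.sign σ • ∏ i, A w (σ i) i‖ = ‖∏ i, A w (σ i) i‖ := by
          rcases Int.units_eq_one_or (Equiv.Perm.sign σ) with h1 | h1 <;> simp [h1]
        rw [hs, norm_prod]
        calc ∏ i, ‖A w (σ i) i‖ ≤ ∏ i, (C * ‖w‖ ^ (m i)) :=
              Finset.prod_le_prod (fun i _ => norm_nonneg _) (fun i _ => hw (σ i) i)
          _ = C ^ Fintype.card ι * ‖w‖ ^ (∑ j, m j) := by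
              rw [Finset.prod_mul_distrib, Finset.prod_const, Finset.prod_pow_eq_pow_sum,
                Finset.card_univ]
    _ = (Fintype.card (Equiv.Perm ι) : ℝ) * C ^ Fintype.card ι * ‖w‖ ^ (∑ j, m j) := by
        rw [Finset.sum_const, Finset.card_univ, nsmul_eq_mul, mul_assoc]

section Combinatorics

variable {X : Type} {G : Type} [Group G] [MulAction G X]

/-- a function invariant under `σ⁻¹` is invariant under all powers of `σ` -/
theorem invariant_zpow (σ : G) (u : X → ℂ) (hu : ∀ x, u (σ⁻¹ • x) = u x) (n : ℤ) (x : X) :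
    u (σ ^ n • x) = u x := by
  have hu' : ∀ x, u (σ • x) = u x := fun x => by
    have := hu (σ • x)
    rw [inv_smul_smul] at this
    exact this.symm
  induction n using Int.induction_on generalizing x with
  | zero => simp
  | succ n ih => rw [zpow_add_one, mul_smul, ih, hu']
  | pred n ih => rw [zpow_sub_one, mul_smul, ih, hu]

/-- a function invariant under `σ⁻¹` takes the same value at `x` and at the chosen
representative of the orbit of `x` -/
theorem invariant_out (σ : G) (u : X → ℂ) (hu : ∀ x, u (σ⁻¹ • x) = u x) (x : X) :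
    u (Quotient.out (Quotient.mk (MulAction.orbitRel (Subgroup.zpowers σ) X) x)) = u x := by
  have h := Quotient.mk_out (s := MulAction.orbitRel (Subgroup.zpowers σ) X) x
  have h' : Quotient.out (Quotient.mk (MulAction.orbitRel (Subgroup.zpowers σ) X) x) ∈
      MulAction.orbit (Subgroup.zpowers σ) x := MulAction.orbitRel_apply.mp h
  obtain ⟨⟨g, hg⟩, hgx⟩ := MulAction.mem_orbit_iff.mp h'
  obtain ⟨n, rfl⟩ := Subgroup.mem_zpowers_iff.mp hg
  rw [← hgx]
  exact invariant_zpow σ u hu n x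

/-- If the columns of `A` are constant along the orbits of `σ`, the kernel of `Aᵀ` has
dimension at least `|X| - #orbits`. -/
theorem le_finrank_ker [Fintype X] [DecidableEq X] (σ : G) (A : Matrix X X ℂ) (hA : ∀ k x, A k x = A k (σ⁻¹ • x)) :
    Fintype.card X - Nat.card (MulAction.orbitRel.Quotient (Subgroup.zpowers σ) X) ≤
      Module.finrank ℂ (LinearMap.ker (Matrix.toLin' Aᵀ)) := by
  classical
  set Ω := MulAction.orbitRel.Quotient (Subgroup.zpowers σ) X with hΩ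
  have : Fintype Ω := Fintype.ofFinite Ω
  set T : (X → ℂ) →ₗ[ℂ] (X → ℂ) := Matrix.toLin' Aᵀ with hT
  -- restriction to orbit representatives
  set R : (X → ℂ) →ₗ[ℂ] (Ω → ℂ) := LinearMap.funLeft ℂ ℂ (Quotient.out : Ω → X) with hR
  have hinv : ∀ v : X → ℂ, ∀ x, T v (σ⁻¹ • x) = T v x := by
    intro v x
    simp only [hT, Matrix.toLin'_apply, Matrix.mulVec, dotProduct, Matrix.transpose_apply]
    exact Finset.sum_congr rfl fun k _ => by rw [← hA k x]
  have hker : LinearMap.ker T = LinearMap.ker (R ∘ₗ T) := by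
    ext v
    simp only [LinearMap.mem_ker, LinearMap.comp_apply]
    constructor
    · intro h; rw [h, map_zero]
    · intro h
      funext x
      have h1 := invariant_out σ (T v) (hinv v) x
      have h2 : R (T v) (Quotient.mk (MulAction.orbitRel (Subgroup.zpowers σ) X) x) = 0 := by
        rw [h]; rfl
      rw [← h1]
      exact h2
  have hrn := LinearMap.finrank_range_add_finrank_ker (R ∘ₗ T)
  have hle : Module.finrank ℂ (LinearMap.range (R ∘ₗ T)) ≤ Fintype.card Ω := by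
    have := Submodule.finrank_le (LinearMap.range (R ∘ₗ T))
    rwa [Module.finrank_fintype_fun_eq_card] at this
  rw [Module.finrank_fintype_fun_eq_card] at hrn
  rw [hker, Nat.card_eq_fintype_card]
  omega

end Combinatorics

/-- coordinates with respect to a basis of `X → ℂ` are bounded by the sup norm of the entries -/
theorem norm_repr_le {X : Type} [Fintype X] [DecidableEq X] {ι : Type*}
    (b : Module.Basis ι ℂ (X → ℂ)) (u : X → ℂ) (B : ℝ) (hu : ∀ x, ‖u x‖ ≤ B) (i : ι) :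
    ‖b.repr u i‖ ≤ (∑ x, ‖b.repr (Pi.single x 1) i‖) * B := by
  have hu' : u = ∑ x, u x • (Pi.single x (1 : ℂ) : X → ℂ) := by
    funext y
    simp [Finset.sum_apply, Pi.single_apply]
  have h1 : b.repr u i = ∑ x, u x * b.repr (Pi.single x 1) i := by
    conv_lhs => rw [hu']
    simp [map_sum, Finset.sum_apply]
  rw [h1, Finset.sum_mul]
  refine (norm_sum_le _ _).trans (Finset.sum_le_sum fun x _ => ?_)
  rw [norm_mul, mul_comm]
  exact mul_le_mul_of_nonneg_left (hu x) (norm_nonneg _)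

/-- If the entries of `Q w` are bounded near `0` and `Q w *ᵥ v = O(|w| ^ e)` for every `v` in a
subspace `K`, then `det (Q w) = O(|w| ^ (e * dim K))`. -/
theorem norm_det_le_of_ker {X : Type} [Fintype X] [DecidableEq X] (Q : ℂ → Matrix X X ℂ)
    (K : Submodule ℂ (X → ℂ)) (e : ℕ)
    (hbdd : ∃ C : ℝ, 0 ≤ C ∧ ∀ᶠ w in 𝓝 (0 : ℂ), ∀ i j, ‖Q w i j‖ ≤ C)
    (hK : ∀ v ∈ K, ∃ C : ℝ, 0 ≤ C ∧
      ∀ᶠ w in 𝓝 (0 : ℂ), ∀ k, ‖(Q w).mulVec v k‖ ≤ C * ‖w‖ ^ e) :
    ∃ C : ℝ, 0 ≤ C ∧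
      ∀ᶠ w in 𝓝 (0 : ℂ), ‖(Q w).det‖ ≤ C * ‖w‖ ^ (e * Module.finrank ℂ K) := by
  classical
  obtain ⟨K', hK'⟩ := Submodule.exists_isCompl K
  let bK := Module.finBasis ℂ K
  let bK' := Module.finBasis ℂ K'
  let b : Module.Basis (Fin (Module.finrank ℂ K) ⊕ Fin (Module.finrank ℂ K')) ℂ (X → ℂ) :=
    (bK.prod bK').map (Submodule.prodEquivOfIsCompl K K' hK')
  have hb_inl : ∀ i, b (Sum.inl i) ∈ K := by
    intro i
    have : b (Sum.inl i) = (bK i : X → ℂ) := by
      simp [b, Module.Basis.map_apply, Submodule.coe_prodEquivOfIsCompl']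
    rw [this]
    exact (bK i).2
  let m : Fin (Module.finrank ℂ K) ⊕ Fin (Module.finrank ℂ K') → ℕ := Sum.elim (fun _ => e) (fun _ => 0)
  -- column bounds in the standard coordinates
  have hcol : ∀ j, ∃ C : ℝ, 0 ≤ C ∧
      ∀ᶠ w in 𝓝 (0 : ℂ), ∀ k, ‖(Q w).mulVec (b j) k‖ ≤ C * ‖w‖ ^ (m j) := by
    rintro (i | i)
    · exact hK _ (hb_inl i)
    · obtain ⟨C, hC, hQ⟩ := hbdd
      refine ⟨∑ y, C * ‖b (Sum.inr i) y‖, Finset.sum_nonneg fun y _ => by positivity, ?_⟩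
      filter_upwards [hQ] with w hw k
      simp only [m, Sum.elim_inr, pow_zero, mul_one, Matrix.mulVec, dotProduct]
      refine (norm_sum_le _ _).trans (Finset.sum_le_sum fun y _ => ?_)
      rw [norm_mul]
      exact mul_le_mul_of_nonneg_right (hw k y) (norm_nonneg _)
  choose Cc hCc hcolC using hcol
  set D : ℝ := ∑ i, ∑ x, ‖b.repr (Pi.single x 1) i‖ with hD
  have hD0 : 0 ≤ D := Finset.sum_nonneg fun i _ => Finset.sum_nonneg fun x _ => norm_nonneg _
  have hDi : ∀ i, (∑ x, ‖b.repr (Pi.single x 1) i‖) ≤ D := fun i =>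
    Finset.single_le_sum (f := fun i => ∑ x, ‖b.repr (Pi.single x 1) i‖)
      (fun i _ => Finset.sum_nonneg fun x _ => norm_nonneg _) (Finset.mem_univ i)
  set Ct : ℝ := ∑ j, Cc j with hCt
  have hCt0 : 0 ≤ Ct := Finset.sum_nonneg fun j _ => hCc j
  have hCj : ∀ j, Cc j ≤ Ct := fun j =>
    Finset.single_le_sum (f := Cc) (fun j _ => hCc j) (Finset.mem_univ j)
  let A : ℂ → Matrix _ _ ℂ := fun w => LinearMap.toMatrix b b (Matrix.toLin' (Q w))
  have hA : ∀ᶠ w in 𝓝 (0 : ℂ), ∀ i j, ‖A w i j‖ ≤ (D * Ct) * ‖w‖ ^ (m j) := by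
    have hall : ∀ᶠ w in 𝓝 (0 : ℂ), ∀ j, ∀ k, ‖(Q w).mulVec (b j) k‖ ≤ Cc j * ‖w‖ ^ (m j) :=
      Filter.eventually_all.mpr hcolC
    filter_upwards [hall] with w hw i j
    have h1 : A w i j = b.repr ((Q w).mulVec (b j)) i := by
      simp [A, LinearMap.toMatrix_apply]
    rw [h1]
    refine (norm_repr_le b _ _ (hw j) i).trans ?_
    have h2 : 0 ≤ Cc j * ‖w‖ ^ (m j) := mul_nonneg (hCc j) (by positivity)
    calc (∑ x, ‖b.repr (Pi.single x 1) i‖) * (Cc j * ‖w‖ ^ (m j))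
        ≤ D * (Cc j * ‖w‖ ^ (m j)) := mul_le_mul_of_nonneg_right (hDi i) h2
      _ ≤ D * (Ct * ‖w‖ ^ (m j)) :=
          mul_le_mul_of_nonneg_left
            (mul_le_mul_of_nonneg_right (hCj j) (by positivity)) hD0
      _ = (D * Ct) * ‖w‖ ^ (m j) := by ring
  obtain ⟨C', hC', hdet⟩ := norm_det_le_of_col_bounds A m (D * Ct) (mul_nonneg hD0 hCt0) hA
  refine ⟨C', hC', hdet.mono fun w hw => ?_⟩
  have h3 : (A w).det = (Q w).det := by
    simp only [A]
    rw [LinearMap.det_toMatrix, LinearMap.det_toLin']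
  have h4 : ∑ j, m j = e * Module.finrank ℂ K := by
    simp [m, Fintype.sum_sum_type, mul_comm]
  rw [h3, h4] at hw
  exact hw

end Fermat.Agent.S21.E.All1
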