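import Mathlib

/-!
# Project ES, part E, work package E-ALL1: the analytic half

* `germ_bound_of_twist` : an analytic germ `f` at `0` with `f (ζ w) = c f (w)` vanishes to order
  `≥ m` as soon as `ζ ^ j ≠ c` for all `j < m`.
* `det_bound_of_col_bound` : a matrix whose `x`-th column is `O(‖w‖ ^ m x)` has determinant
  `O(‖w‖ ^ ∑ m x)`.
* `det_sq_bound_of_transform` : assembly for a constant invertible change of columns.
-/

set_option autoImplicit false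

open Filter Topology

namespace Fermat.Agent.S21.E.All1

/-- Eventually near `0`, `‖w‖ ≤ 1`. -/
theorem eventually_norm_le_one : ∀ᶠ w in 𝓝 (0 : ℂ), ‖w‖ ≤ 1 := by
  have h : ∀ᶠ w in 𝓝 (0 : ℂ), ‖w‖ < 1 := by
    have := (continuous_norm.tendsto (0 : ℂ)).eventually (gt_mem_nhds (by simp : ‖(0 : ℂ)‖ < 1))
    exact this
  exact h.mono fun w hw => hw.le

/-- A property holding near `0` also holds near `0` after scaling the variable. -/
theorem eventually_scale {P : ℂ → Prop} (ζ : ℂ) (h : ∀ᶠ w in 𝓝 (0 : ℂ), P w) :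
    ∀ᶠ w in 𝓝 (0 : ℂ), P (ζ * w) := by
  have ht : Tendsto (fun w : ℂ => ζ * w) (𝓝 0) (𝓝 0) := by
    have : Tendsto (fun w : ℂ => ζ * w) (𝓝 0) (𝓝 (ζ * 0)) :=
      (continuous_const.mul continuous_id).tendsto 0
    simpa using this
  exact ht.eventually h

/-- Lowering the exponent of a bound near `0`. -/
theorem bound_mono_exponent {F : ℂ → ℝ} {C : ℝ} {n m : ℕ} (hmn : m ≤ n) (hC : 0 ≤ C)
    (h : ∀ᶠ w in 𝓝 (0 : ℂ), F w ≤ C * ‖w‖ ^ n) :
    ∀ᶠ w in 𝓝 (0 : ℂ), F w ≤ C * ‖w‖ ^ m := by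
  filter_upwards [h, eventually_norm_le_one] with w hw hw1
  refine hw.trans (mul_le_mul_of_nonneg_left ?_ hC)
  exact pow_le_pow_of_le_one (norm_nonneg w) hw1 hmn

/-- **Twisted germs.** If `f` is analytic at `0` and `f (ζ w) = c f (w)` near `0`,
then `f = O(‖w‖ ^ m)` for every `m` such that `ζ ^ j ≠ c` for all `j < m`. -/
theorem germ_bound_of_twist {f : ℂ → ℂ} (hf : AnalyticAt ℂ f 0) {ζ c : ℂ}
    (heq : ∀ᶠ w in 𝓝 (0 : ℂ), f (ζ * w) = c * f w) (m : ℕ) (hm : ∀ j < m, ζ ^ j ≠ c) :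
    ∃ C : ℝ, 0 ≤ C ∧ ∀ᶠ w in 𝓝 (0 : ℂ), ‖f w‖ ≤ C * ‖w‖ ^ m := by
  by_cases htop : analyticOrderAt f 0 = ⊤
  · refine ⟨0, le_rfl, ?_⟩
    filter_upwards [analyticOrderAt_eq_top.mp htop] with w hw
    simp [hw]
  · obtain ⟨g, hg, hg0, hfg⟩ := hf.analyticOrderAt_ne_top.mp htop
    set n := analyticOrderNatAt f 0 with hn
    have hfg' : ∀ᶠ w in 𝓝 (0 : ℂ), f w = w ^ n * g w := by
      filter_upwards [hfg] with w hw
      simpa using hw
    -- the twisted relation for `g`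
    have hrel : ∀ᶠ w in 𝓝 (0 : ℂ), w ≠ 0 → ζ ^ n * g (ζ * w) = c * g w := by
      filter_upwards [heq, hfg', eventually_scale ζ hfg'] with w h1 h2 h3 hw
      rw [h3, h2] at h1
      have hwn : w ^ n ≠ 0 := pow_ne_zero n hw
      have : w ^ n * (ζ ^ n * g (ζ * w)) = w ^ n * (c * g w) := by
        rw [mul_pow] at h1
        linear_combination h1
      exact mul_left_cancel₀ hwn this
    -- pass to the limit `w → 0`
    have hcg : ContinuousAt g 0 := hg.continuousAt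
    have hlim1 : Tendsto (fun w : ℂ => ζ ^ n * g (ζ * w)) (𝓝[≠] 0) (𝓝 (ζ ^ n * g 0)) := by
      have ht : Tendsto (fun w : ℂ => ζ * w) (𝓝 0) (𝓝 0) := by
        have : Tendsto (fun w : ℂ => ζ * w) (𝓝 0) (𝓝 (ζ * 0)) :=
          (continuous_const.mul continuous_id).tendsto 0
        simpa using this
      have h2 : Tendsto (fun w : ℂ => g (ζ * w)) (𝓝 0) (𝓝 (g 0)) := hcg.tendsto.comp ht
      exact (tendsto_const_nhds.mul h2).mono_left nhdsWithin_le_nhds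
    have hlim2 : Tendsto (fun w : ℂ => c * g w) (𝓝[≠] 0) (𝓝 (c * g 0)) :=
      (tendsto_const_nhds.mul hcg.tendsto).mono_left nhdsWithin_le_nhds
    have hev : (fun w : ℂ => ζ ^ n * g (ζ * w)) =ᶠ[𝓝[≠] 0] fun w => c * g w := by
      rw [Filter.EventuallyEq, eventually_nhdsWithin_iff]
      exact hrel
    have hval : ζ ^ n * g 0 = c * g 0 :=
      tendsto_nhds_unique (hlim1.congr' hev) hlim2
    have hζn : ζ ^ n = c := mul_right_cancel₀ hg0 hval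
    have hmn : m ≤ n := by
      by_contra h
      exact hm n (not_le.mp h) hζn
    -- the bound
    have hgb : ∀ᶠ w in 𝓝 (0 : ℂ), ‖g w‖ ≤ ‖g 0‖ + 1 := by
      have : Tendsto (fun w => ‖g w‖) (𝓝 0) (𝓝 ‖g 0‖) := (continuous_norm.tendsto _).comp hcg.tendsto
      exact (this.eventually (gt_mem_nhds (lt_add_one ‖g 0‖))).mono fun w hw => hw.le
    refine ⟨‖g 0‖ + 1, by positivity, ?_⟩
    refine bound_mono_exponent hmn (by positivity) ?_
    filter_upwards [hfg', hgb] with w hw hgw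
    rw [hw, norm_mul, norm_pow, mul_comm]
    exact mul_le_mul_of_nonneg_right hgw (pow_nonneg (norm_nonneg w) n)

/-- **Determinant bound from column bounds.** -/
theorem det_bound_of_col_bound {X : Type} [Fintype X] [DecidableEq X] (N : ℂ → Matrix X X ℂ)
    (m : X → ℕ)
    (h : ∀ x, ∃ C : ℝ, 0 ≤ C ∧ ∀ᶠ w in 𝓝 (0 : ℂ), ∀ k, ‖N w k x‖ ≤ C * ‖w‖ ^ m x) :
    ∃ C : ℝ, 0 ≤ C ∧ ∀ᶠ w in 𝓝 (0 : ℂ), ‖(N w).det‖ ≤ C * ‖w‖ ^ (∑ x, m x) := by
  choose C hC0 hC using h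
  refine ⟨(Fintype.card (Equiv.Perm X) : ℝ) * ∏ x, C x, ?_, ?_⟩
  · exact mul_nonneg (Nat.cast_nonneg _) (Finset.prod_nonneg fun x _ => hC0 x)
  · have hall : ∀ᶠ w in 𝓝 (0 : ℂ), ∀ x, ∀ k, ‖N w k x‖ ≤ C x * ‖w‖ ^ m x :=
      Filter.eventually_all.mpr hC
    filter_upwards [hall] with w hw
    rw [Matrix.det_apply]
    have hterm : ∀ π : Equiv.Perm X,
        ‖Equiv.Perm.sign π • ∏ i, N w (π i) i‖ ≤ (∏ x, C x) * ‖w‖ ^ (∑ x, m x) := by
      intro π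
      have h1 : ‖Equiv.Perm.sign π • ∏ i, N w (π i) i‖ = ‖∏ i, N w (π i) i‖ := by
        rcases Int.units_eq_one_or (Equiv.Perm.sign π) with h | h <;> simp [h]
      rw [h1, norm_prod]
      calc ∏ i, ‖N w (π i) i‖ ≤ ∏ i, (C i * ‖w‖ ^ m i) :=
            Finset.prod_le_prod (fun i _ => norm_nonneg _) fun i _ => hw i (π i)
        _ = (∏ x, C x) * ‖w‖ ^ (∑ x, m x) := by
            rw [Finset.prod_mul_distrib, Finset.prod_pow_eq_pow_sum]
    calc ‖∑ π : Equiv.Perm X, Equiv.Perm.sign π • ∏ i, N w (π i) i‖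
        ≤ ∑ π : Equiv.Perm X, ‖Equiv.Perm.sign π • ∏ i, N w (π i) i‖ := norm_sum_le _ _
      _ ≤ ∑ _π : Equiv.Perm X, (∏ x, C x) * ‖w‖ ^ (∑ x, m x) :=
          Finset.sum_le_sum fun π _ => hterm π
      _ = ((Fintype.card (Equiv.Perm X) : ℝ) * ∏ x, C x) * ‖w‖ ^ (∑ x, m x) := by
          rw [Finset.sum_const, Finset.card_univ, nsmul_eq_mul, mul_assoc]

/-- **Assembly.** If the columns of `M w * B` (with `B` a constant invertible matrix) are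
`O(‖w‖ ^ m x)`, then `‖det (M w)‖ ^ 2 = O(‖w‖ ^ E)` for every `E ≤ 2 * ∑ m x`. -/
theorem det_sq_bound_of_transform {X : Type} [Fintype X] [DecidableEq X] (M : ℂ → Matrix X X ℂ)
    (B : Matrix X X ℂ) (hB : B.det ≠ 0) (m : X → ℕ)
    (h : ∀ x, ∃ C : ℝ, 0 ≤ C ∧ ∀ᶠ w in 𝓝 (0 : ℂ), ∀ k, ‖(M w * B) k x‖ ≤ C * ‖w‖ ^ m x)
    (E : ℕ) (hE : E ≤ 2 * ∑ x, m x) :
    ∃ C : ℝ, ∀ᶠ w in 𝓝 (0 : ℂ), ‖(M w).det‖ ^ 2 ≤ C * ‖w‖ ^ E := by
  obtain ⟨C, hC0, hC⟩ := det_bound_of_col_bound (fun w => M w * B) m h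
  have hBn : 0 < ‖B.det‖ := norm_pos_iff.mpr hB
  refine ⟨(C / ‖B.det‖) ^ 2, ?_⟩
  refine bound_mono_exponent hE (by positivity) ?_
  filter_upwards [hC] with w hw
  have h1 : ‖(M w).det‖ ≤ C / ‖B.det‖ * ‖w‖ ^ (∑ x, m x) := by
    have h2 : ‖(M w).det‖ * ‖B.det‖ ≤ C * ‖w‖ ^ (∑ x, m x) := by
      have := hw
      simp only [Matrix.det_mul, norm_mul] at this
      exact this
    rw [div_mul_eq_mul_div, le_div_iff₀ hBn]
    exact h2
  calc ‖(M w).det‖ ^ 2 ≤ (C / ‖B.det‖ * ‖w‖ ^ (∑ x, m x)) ^ 2 :=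
        pow_le_pow_left₀ (norm_nonneg _) h1 2
    _ = (C / ‖B.det‖) ^ 2 * ‖w‖ ^ (2 * ∑ x, m x) := by
        rw [mul_pow, ← pow_mul, mul_comm (∑ x, m x) 2]

end Fermat.Agent.S21.E.All1
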