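import Fermat.Agent.S21.E.All1.Analytic

/-!
# Project ES, part E, work package E-ALL1: the combinatorial (block-DFT) half

Model situation: the index set is `Σ ω : Ω, ZMod (n ω)` (a disjoint union of cycles of lengths
`n ω ∣ e`), and the matrix germ satisfies `M (ζ w) k ⟨ω, s⟩ = M w k ⟨ω, s - 1⟩`.
We transform the columns by the block discrete Fourier matrix, bound the transformed columns by
`germ_bound_of_twist`, and count exponents.
-/

set_option autoImplicit false

open Filter Topology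

namespace Fermat.Agent.S21.E.All1

/-- Sums over `ZMod n` of functions of `val` are sums over `range n`. -/
theorem sum_zmod_val {A : Type} [AddCommMonoid A] (n : ℕ) [NeZero n] (g : ℕ → A) :
    ∑ r : ZMod n, g r.val = ∑ i ∈ Finset.range n, g i := by
  cases n with
  | zero => exact absurd rfl (NeZero.ne 0)
  | succ k => exact Fin.sum_univ_eq_sum_range g (k + 1)

/-- Exponents may be reduced modulo `n` when `ζ ^ (a * n) = 1`. -/
theorem pow_mul_mod {ζ : ℂ} {a n : ℕ} (h : ζ ^ (a * n) = 1) (k : ℕ) :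
    ζ ^ (a * (k % n)) = ζ ^ (a * k) := by
  conv_rhs => rw [← Nat.div_add_mod k n]
  rw [mul_add, pow_add, ← mul_assoc, pow_mul (ζ) (a * n), h, one_pow, one_mul]

/-- `val (s + 1)` in an exponent. -/
theorem pow_mul_val_add_one {ζ : ℂ} {a n : ℕ} [NeZero n] (h : ζ ^ (a * n) = 1) (s : ZMod n) :
    ζ ^ (a * (s + 1).val) = ζ ^ a * ζ ^ (a * s.val) := by
  rw [ZMod.val_add, ZMod.val_one_eq_one_mod, Nat.add_mod_mod, pow_mul_mod h, mul_add, pow_add,
    mul_one, mul_comm]

/-- Orthogonality of characters of `ZMod n`. -/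
theorem dft_orth {n : ℕ} [NeZero n] {η : ℂ} (hη : IsPrimitiveRoot η n) (s s' : ZMod n) :
    ∑ r : ZMod n, η ^ (r.val * s.val) * ((n : ℂ)⁻¹ * (η⁻¹) ^ (r.val * s'.val)) =
      if s = s' then 1 else 0 := by
  have hn0 : (n : ℂ) ≠ 0 := Nat.cast_ne_zero.mpr (NeZero.ne n)
  have hη0 : η ≠ 0 := hη.ne_zero (NeZero.ne n)
  set x : ℂ := η ^ s.val * (η⁻¹) ^ s'.val with hx
  have hterm : ∀ r : ZMod n, η ^ (r.val * s.val) * ((n : ℂ)⁻¹ * (η⁻¹) ^ (r.val * s'.val)) =
      (n : ℂ)⁻¹ * x ^ r.val := by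
    intro r
    rw [hx, mul_pow, ← pow_mul, ← pow_mul, mul_comm s.val, mul_comm s'.val]
    ring
  simp_rw [hterm]
  rw [← Finset.mul_sum, sum_zmod_val n (fun i => x ^ i)]
  by_cases hs : s = s'
  · subst hs
    have hx1 : x = 1 := by
      rw [hx, inv_pow]
      exact mul_inv_cancel₀ (pow_ne_zero _ hη0)
    simp [hx1, hn0]
  · rw [if_neg hs]
    have hxn : x ^ n = 1 := by
      rw [hx, mul_pow, ← pow_mul, ← pow_mul, mul_comm s.val, mul_comm s'.val, pow_mul, pow_mul,
        inv_pow, hη.pow_eq_one]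
      simp
    have hx1 : x ≠ 1 := by
      intro h1
      apply hs
      have h2 : η ^ s.val = η ^ s'.val := by
        have := congrArg (fun t => t * η ^ s'.val) h1
        simp only [hx, inv_pow, one_mul] at this
        rw [mul_assoc, inv_mul_cancel₀ (pow_ne_zero _ hη0), mul_one] at this
        exact this
      exact ZMod.val_injective n (hη.pow_inj (ZMod.val_lt s) (ZMod.val_lt s') h2)
    have hgeom := geom_sum_mul x n
    rw [hxn, sub_self] at hgeom
    have : ∑ i ∈ Finset.range n, x ^ i = 0 := by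
      rcases mul_eq_zero.mp hgeom with h | h
      · exact h
      · exact absurd (sub_eq_zero.mp h) hx1
    rw [this, mul_zero]

section Model

variable {Ω : Type} [Fintype Ω] [DecidableEq Ω] (n : Ω → ℕ) [∀ ω, NeZero (n ω)]

/-- The block discrete Fourier matrix. -/
noncomputable def dftMat (e : ℕ) (ζ : ℂ) :
    Matrix (Σ ω, ZMod (n ω)) (Σ ω, ZMod (n ω)) ℂ :=
  fun p q => if p.1 = q.1 then (ζ ^ (e / n q.1)) ^ (q.2.val * p.2.val) else 0

/-- The inverse of the block discrete Fourier matrix. -/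
noncomputable def dftInv (e : ℕ) (ζ : ℂ) :
    Matrix (Σ ω, ZMod (n ω)) (Σ ω, ZMod (n ω)) ℂ :=
  fun p q => if p.1 = q.1 then
    (n p.1 : ℂ)⁻¹ * ((ζ ^ (e / n p.1))⁻¹) ^ (p.2.val * q.2.val) else 0

theorem isPrimitiveRoot_pow_div {e : ℕ} (he : 0 < e) {ζ : ℂ} (hζ : IsPrimitiveRoot ζ e)
    {k : ℕ} (hk : k ∣ e) : IsPrimitiveRoot (ζ ^ (e / k)) k :=
  hζ.pow he (Nat.div_mul_cancel hk).symm

theorem dftMat_mul_dftInv {e : ℕ} (he : 0 < e) (hn : ∀ ω, n ω ∣ e) {ζ : ℂ}
    (hζ : IsPrimitiveRoot ζ e) : dftMat n e ζ * dftInv n e ζ = 1 := by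
  ext ⟨ω, s⟩ ⟨ω', s'⟩
  rw [Matrix.mul_apply, Fintype.sum_sigma]
  rw [Finset.sum_eq_single ω]
  · by_cases h : ω = ω'
    · subst h
      have := dft_orth (isPrimitiveRoot_pow_div he hζ (hn ω)) s s'
      simp only [dftMat, dftInv, if_true]
      rw [this, Matrix.one_apply]
      simp
    · have hne : (⟨ω, s⟩ : Σ ω, ZMod (n ω)) ≠ ⟨ω', s'⟩ := fun h' => h (congrArg Sigma.fst h')
      rw [Matrix.one_apply_ne hne]
      refine Finset.sum_eq_zero fun r _ => ?_
      simp [dftInv, h]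
  · intro ω'' _ hne
    refine Finset.sum_eq_zero fun r _ => ?_
    simp [dftMat, Ne.symm hne]
  · intro h
    exact absurd (Finset.mem_univ ω) h

theorem det_dftMat_ne_zero {e : ℕ} (he : 0 < e) (hn : ∀ ω, n ω ∣ e) {ζ : ℂ}
    (hζ : IsPrimitiveRoot ζ e) : (dftMat n e ζ).det ≠ 0 :=
  Matrix.det_ne_zero_of_right_inverse (dftMat_mul_dftInv n he hn hζ)

theorem mul_dftMat_apply (e : ℕ) (ζ : ℂ) (A : Matrix (Σ ω, ZMod (n ω)) (Σ ω, ZMod (n ω)) ℂ)
    (k : Σ ω, ZMod (n ω)) (ω : Ω) (r : ZMod (n ω)) :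
    (A * dftMat n e ζ) k ⟨ω, r⟩ =
      ∑ s : ZMod (n ω), A k ⟨ω, s⟩ * (ζ ^ (e / n ω)) ^ (r.val * s.val) := by
  rw [Matrix.mul_apply, Fintype.sum_sigma]
  rw [Finset.sum_eq_single ω]
  · simp [dftMat]
  · intro ω'' _ hne
    refine Finset.sum_eq_zero fun r _ => ?_
    simp [dftMat, hne]
  · intro h
    exact absurd (Finset.mem_univ ω) h

/-- **Model theorem**: the determinant bound for a disjoint union of cycles. -/
theorem model_det_sq_bound {e : ℕ} (he : 0 < e) (hn : ∀ ω, n ω ∣ e) {ζ : ℂ}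
    (hζ : IsPrimitiveRoot ζ e)
    (M : ℂ → Matrix (Σ ω, ZMod (n ω)) (Σ ω, ZMod (n ω)) ℂ)
    (hM : ∀ k x, AnalyticAt ℂ (fun w => M w k x) 0)
    (heq : ∀ᶠ w in 𝓝 (0 : ℂ), ∀ (k : Σ ω, ZMod (n ω)) (ω : Ω) (s : ZMod (n ω)),
      M (ζ * w) k ⟨ω, s⟩ = M w k ⟨ω, s - 1⟩) :
    ∃ C : ℝ, ∀ᶠ w in 𝓝 (0 : ℂ), ‖(M w).det‖ ^ 2 ≤ C * ‖w‖ ^ (e * ∑ ω, (n ω - 1)) := by
  refine det_sq_bound_of_transform M (dftMat n e ζ) (det_dftMat_ne_zero n he hn hζ)
    (fun x => (e / n x.1) * x.2.val) ?_ _ ?_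
  · -- column bounds
    rintro ⟨ω, r⟩
    have hd : e / n ω * n ω = e := Nat.div_mul_cancel (hn ω)
    have hdpos : 0 < e / n ω :=
      Nat.div_pos (Nat.le_of_dvd he (hn ω)) (Nat.pos_of_ne_zero (NeZero.ne _))
    set η := ζ ^ (e / n ω) with hη
    have hηn : η ^ (n ω) = 1 := by rw [hη, ← pow_mul, hd, hζ.pow_eq_one]
    have key : ∀ k, ∃ C : ℝ, 0 ≤ C ∧ ∀ᶠ w in 𝓝 (0 : ℂ),
        ‖(M w * dftMat n e ζ) k ⟨ω, r⟩‖ ≤ C * ‖w‖ ^ (e / n ω * r.val) := by
      intro k
      have hfun : (fun w => (M w * dftMat n e ζ) k ⟨ω, r⟩) =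
          fun w => ∑ s : ZMod (n ω), M w k ⟨ω, s⟩ * η ^ (r.val * s.val) := by
        funext w
        exact mul_dftMat_apply n e ζ (M w) k ω r
      have han : AnalyticAt ℂ (fun w => (M w * dftMat n e ζ) k ⟨ω, r⟩) 0 := by
        rw [hfun]
        exact Finset.analyticAt_fun_sum _ (fun s _ => (hM k ⟨ω, s⟩).mul analyticAt_const)
      refine germ_bound_of_twist han (ζ := ζ) (c := η ^ r.val) ?_ _ ?_
      · filter_upwards [heq] with w hw
        simp only [mul_dftMat_apply]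
        rw [Finset.mul_sum]
        symm
        refine Fintype.sum_equiv (Equiv.addRight (1 : ZMod (n ω))) _ _ fun s => ?_
        simp only [Equiv.coe_addRight]
        rw [hw, add_sub_cancel_right, ← hη,
          pow_mul_val_add_one (a := r.val) (by rw [pow_mul', hηn, one_pow]) s]
        ring
      · intro j hj
        rw [hη, ← pow_mul]
        intro h
        have hlt : e / n ω * r.val < e := by
          calc e / n ω * r.val < e / n ω * n ω :=
                Nat.mul_lt_mul_of_pos_left (ZMod.val_lt r) hdpos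
            _ = e := hd
        have := hζ.pow_inj (hj.trans hlt) hlt h
        omega
    choose C hC0 hC using key
    refine ⟨∑ k, C k, Finset.sum_nonneg fun k _ => hC0 k, ?_⟩
    have hall := Filter.eventually_all.mpr hC
    filter_upwards [hall] with w hw k
    refine (hw k).trans ?_
    exact mul_le_mul_of_nonneg_right
      (Finset.single_le_sum (fun i _ => hC0 i) (Finset.mem_univ k)) (pow_nonneg (norm_nonneg w) _)
  · -- the count
    rw [Fintype.sum_sigma]
    have h1 : ∀ ω, ∑ r : ZMod (n ω), e / n ω * r.val =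
        e / n ω * ∑ i ∈ Finset.range (n ω), i := by
      intro ω
      rw [sum_zmod_val (n ω) (fun i => e / n ω * i), Finset.mul_sum]
    simp_rw [h1]
    rw [Finset.mul_sum, Finset.mul_sum]
    refine le_of_eq (Finset.sum_congr rfl fun ω _ => ?_)
    have h2 := Finset.sum_range_id_mul_two (n ω)
    have hd : e / n ω * n ω = e := Nat.div_mul_cancel (hn ω)
    calc e * (n ω - 1) = e / n ω * (n ω * (n ω - 1)) := by rw [← mul_assoc, hd]
      _ = e / n ω * ((∑ i ∈ Finset.range (n ω), i) * 2) := by rw [h2]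
      _ = 2 * (e / n ω * ∑ i ∈ Finset.range (n ω), i) := by ring

end Model

section Transfer

open MulAction Subgroup Function

variable {X : Type} {G : Type} [Group G] [MulAction G X]

/-- Decomposition of `X` into the cycles of `σ`. -/
noncomputable def orbitSigmaEquiv (σ : G) :
    X ≃ Σ q : orbitRel.Quotient (zpowers σ) X, ZMod (minimalPeriod (σ • ·) q.out) :=
  (selfEquivSigmaOrbits (zpowers σ) X).trans
    (Equiv.sigmaCongrRight fun q => orbitZPowersEquiv σ q.out)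

theorem orbitSigmaEquiv_symm_apply (σ : G) (q : orbitRel.Quotient (zpowers σ) X)
    (k : ZMod (minimalPeriod (σ • ·) q.out)) :
    (orbitSigmaEquiv σ).symm ⟨q, k⟩ = σ ^ (ZMod.cast k : ℤ) • q.out := rfl

theorem inv_smul_orbitSigmaEquiv_symm (σ : G) (q : orbitRel.Quotient (zpowers σ) X)
    (k : ZMod (minimalPeriod (σ • ·) q.out)) :
    σ⁻¹ • (orbitSigmaEquiv σ).symm ⟨q, k⟩ = (orbitSigmaEquiv σ).symm ⟨q, k - 1⟩ := by
  rw [orbitSigmaEquiv_symm_apply, orbitSigmaEquiv_symm_apply, ← zpow_neg_one, ← mul_smul,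
    ← zpow_add]
  rw [← zpow_smul_mod_minimalPeriod σ q.out (-1 + ZMod.cast k),
    ← zpow_smul_mod_minimalPeriod σ q.out (ZMod.cast (k - 1))]
  congr 2
  apply (ZMod.intCast_eq_intCast_iff' _ _ _).mp
  push_cast
  ring

/-- **E-ALL1**, general form. -/
theorem all1_general [Fintype X] [DecidableEq X] (σ : G) (e : ℕ) (he : 0 < e) (ζ : ℂ) (hζ : IsPrimitiveRoot ζ e)
    (hσ : ∀ x : X, σ ^ e • x = x)
    (M : ℂ → Matrix X X ℂ) (hM : ∀ k x, AnalyticAt ℂ (fun w => M w k x) 0)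
    (heq : ∀ᶠ w in 𝓝 (0 : ℂ), ∀ k x, M (ζ * w) k x = M w k (σ⁻¹ • x)) :
    ∃ C : ℝ, ∀ᶠ w in 𝓝 (0 : ℂ), ‖(M w).det‖ ^ 2 ≤
      C * ‖w‖ ^ (e * (Fintype.card X -
        Nat.card (MulAction.orbitRel.Quotient (Subgroup.zpowers σ) X))) := by
  classical
  have : Finite (orbitRel.Quotient (zpowers σ) X) := Quotient.finite _
  let _ : Fintype (orbitRel.Quotient (zpowers σ) X) := Fintype.ofFinite _
  have hn : ∀ q : orbitRel.Quotient (zpowers σ) X, minimalPeriod (σ • ·) q.out ∣ e := by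
    intro q
    apply Function.IsPeriodicPt.minimalPeriod_dvd
    rw [Function.IsPeriodicPt, Function.IsFixedPt, smul_iterate]
    exact hσ _
  obtain ⟨C, hC⟩ := model_det_sq_bound
    (fun q : orbitRel.Quotient (zpowers σ) X => minimalPeriod (σ • ·) q.out) he hn hζ
    (fun w => Matrix.reindex (orbitSigmaEquiv σ) (orbitSigmaEquiv σ) (M w))
    (fun k x => hM _ _)
    (by
      filter_upwards [heq] with w hw k q s
      simp only [Matrix.reindex_apply, Matrix.submatrix_apply]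
      rw [hw, inv_smul_orbitSigmaEquiv_symm])
  refine ⟨C, ?_⟩
  have hcard : Fintype.card X =
      ∑ q : orbitRel.Quotient (zpowers σ) X, minimalPeriod (σ • ·) q.out := by
    rw [Fintype.card_congr (orbitSigmaEquiv (X := X) σ), Fintype.card_sigma]
    exact Finset.sum_congr rfl fun q _ => ZMod.card _
  have hcount : Fintype.card X - Nat.card (orbitRel.Quotient (zpowers σ) X) =
      ∑ q : orbitRel.Quotient (zpowers σ) X, (minimalPeriod (σ • ·) q.out - 1) := by
    rw [hcard, Nat.card_eq_fintype_card, Finset.sum_tsub_distrib]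
    · simp
    · intro q _
      exact Nat.one_le_iff_ne_zero.mpr (NeZero.ne _)
  filter_upwards [hC] with w hw
  rw [Matrix.det_reindex_self] at hw
  rw [hcount]
  exact hw

end Transfer

end Fermat.Agent.S21.E.All1
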